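/-
T4 (S36; architect helper9), **the Kummer-level interface** between the geometry of T4 and the
statement-level reduction T4-G (helper4).

Level `N = N'' * q * q` (`= (N'' * q) * q`, so that the towers `t2iAlgebra L N'' q`,
`t2iAlgebra L (N'' * q) q` of T2 apply), `q` prime, `q ∤ N''`.

* `T4gWType`: the type of a function-level Atkin–Lehner involution `w_{q²}` (a family of monoid
  endomorphisms of the units of the function fields of level `N'' q q` over `ℚ̄`);
* `T4gWCompat wU`: the two compatibilities required of `w_{q²}` (owner: lead, package V2):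
  (a) analytically it is composition with the matrix `W_{q²}` (the coset system `t4gSysW`),
  (b) it commutes with the Galois action `tkrSig`;
* `T4NewAt wU N'' q h`, `T4New wU`, `T4NewAux wU`: the statement **(NEW)** (owner: T4-N):
  a Kummer class `y ∈ tWsub ℚ̄ N m` (`m` prime to `q`) which is invariant under the inertia group at
  `q` modulo `m`-th powers and such that `U_q y` and `U_q (w y)` are `m`-th powers
  (i.e. `β_* y = 0` and `α_* y = 0`) is killed by `(q² - 1)²`.
  `T4NewAux` is the same with the auxiliary hypothesis `4 ∣ N'' ∨ 9 ∣ N''` (no elliptic points).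
-/
import Mathlib
import Fermat.Agent.Lib.T4.G.ALsq

set_option autoImplicit false
set_option linter.unusedSectionVars false
set_option linter.unusedVariables false
set_option linter.style.haveILetI false

open scoped TensorProduct
open Matrix MatrixGroups CongruenceSubgroup Fermat.Agent.T1 Fermat.Agent.T2 ModularCurve
  Fermat.Agent.S24Lib ModularCurve.Period

namespace Fermat.Agent.T4

local notation "Kbar" => AlgebraicClosure ℚ
local notation "GQ" => (AlgebraicClosure ℚ ≃ₐ[ℚ] AlgebraicClosure ℚ)

/-- the type of a function-level Atkin–Lehner involution `w_{q²}` on the units of the function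
fields of level `N'' q q` -/
abbrev T4gWType : Type :=
  ∀ (N'' q : ℕ) [NeZero N''] [Fact q.Prime] (_ : ¬ q ∣ N'') [NeZero (N'' * q * q)],
    (↥(modularFunctionFieldBar (N'' * q * q)))ˣ →* (↥(modularFunctionFieldBar (N'' * q * q)))ˣ

/-- the compatibilities required of `w_{q²}`: it is composition with the matrix `W_{q²}` on the
analytic side, and it commutes with the Galois action -/
def T4gWCompat (wU : T4gWType) : Prop :=
  ∀ (N'' q : ℕ) [NeZero N''] [Fact q.Prime] (h : ¬ q ∣ N'') [NeZero (N'' * q * q)],
    (∀ (DK : TdmDict Kbar (N'' * q * q)), DK.toMer = KMod.toMer Kbar (N'' * q * q) →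
      ∀ y : (↥(modularFunctionFieldBar (N'' * q * q)))ˣ,
        DK.fn ((wU N'' q h y : (↥(modularFunctionFieldBar (N'' * q * q)))ˣ) :
            ↥(modularFunctionFieldBar (N'' * q * q)))
          = (t4gSysW N'' q h).prodFn (DK.fn (y : ↥(modularFunctionFieldBar (N'' * q * q))))) ∧
    (∀ (σ : GQ) (y : (↥(modularFunctionFieldBar (N'' * q * q)))ˣ),
      wU N'' q h (tkrSig (N'' * q * q) σ y) = tkrSig (N'' * q * q) σ (wU N'' q h y))

/-- **(NEW)** at the level `N'' q q`, function level: a Kummer class of level `N'' q q` which is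
invariant under inertia at `q` and is killed by `U_q` (i.e. by `β_*`) and by `U_q ∘ w_{q²}` (i.e. by
`α_*`) is killed by `(q² - 1)²` -/
def T4NewAt (wU : T4gWType) (N'' q : ℕ) [NeZero N''] [Fact q.Prime] (h : ¬ q ∣ N'')
    [NeZero (N'' * q * q)] : Prop :=
  ∀ (A : ValuationSubring Kbar), A.LiesOverPrime q →
    ∀ m : ℕ, Nat.Coprime m q → m ≠ 0 →
      ∀ y : (↥(modularFunctionFieldBar (N'' * q * q)))ˣ, y ∈ tWsub Kbar (N'' * q * q) m →
        (∀ σ ∈ A.inertiaSubgroupIn ℚ, ∃ t : (↥(modularFunctionFieldBar (N'' * q * q)))ˣ,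
          tkrSig (N'' * q * q) σ y = y * t ^ m) →
        (∃ t : (↥(modularFunctionFieldBar (N'' * q * q)))ˣ,
          tkrHeckeUUnits (N'' * q * q) q y = t ^ m) →
        (∃ t : (↥(modularFunctionFieldBar (N'' * q * q)))ˣ,
          tkrHeckeUUnits (N'' * q * q) q (wU N'' q h y) = t ^ m) →
        ∃ t : (↥(modularFunctionFieldBar (N'' * q * q)))ˣ, y ^ ((q ^ 2 - 1) ^ 2) = t ^ m

/-- **(NEW)** at all levels -/
def T4New (wU : T4gWType) : Prop :=
  ∀ (N'' q : ℕ) [NeZero N''] [Fact q.Prime] (h : ¬ q ∣ N'') [NeZero (N'' * q * q)],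
    T4NewAt wU N'' q h

/-- **(NEW)** at the levels without elliptic points (`4 ∣ N''` or `9 ∣ N''`): the form proved by
the geometry; `T4NewAux wU → T4New wU` is the level juggling -/
def T4NewAux (wU : T4gWType) : Prop :=
  ∀ (N'' q : ℕ) [NeZero N''] [Fact q.Prime] (h : ¬ q ∣ N'') [NeZero (N'' * q * q)],
    (4 ∣ N'' ∨ 9 ∣ N'') → T4NewAt wU N'' q h

end Fermat.Agent.T4
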